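import Mathlib.Algebra.MvPolynomial.Funext
import Mathlib.Algebra.MvPolynomial.PDeriv
import Mathlib.RingTheory.Nullstellensatz
import Mathlib.RingTheory.Spectrum.Prime.Chevalley
import Mathlib.RingTheory.Polynomial.Basic
import Mathlib.LinearAlgebra.Matrix.ToLinearEquiv

/-!
# Polynomial maps with a nondegenerate differential

Over a field of characteristic zero such a map has algebraically independent components; over an
algebraically closed one, its image on a principal open set contains a nonempty principal open set.
-/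

set_option autoImplicit false

noncomputable section

namespace FA.CartanConjugacy

open MvPolynomial

variable {K : Type*} [Field K] {σ τ : Type*}

/-- The chain rule. -/
lemma pderiv_aeval [Fintype σ] (P : σ → MvPolynomial τ K) (l : τ) (q : MvPolynomial σ K) :
    pderiv l (aeval P q) = ∑ i, aeval P (pderiv i q) * pderiv l (P i) := by
  classical
  induction q using MvPolynomial.induction_on with
  | C a => simp
  | add p q hp hq => simp [hp, hq, add_mul, Finset.sum_add_distrib]
  | mul_X p n hp =>
    have h : ∀ i, aeval P (pderiv i (p * X n)) * pderiv l (P i) =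
        P n * (aeval P (pderiv i p) * pderiv l (P i)) +
          (if i = n then aeval P p * pderiv l (P n) else 0) := fun i => by
      by_cases hi : i = n
      · subst hi
        rw [pderiv_mul, pderiv_X_self, mul_one, map_add, map_mul, aeval_X, if_pos rfl]
        ring
      · rw [pderiv_mul, pderiv_X_of_ne (Ne.symm hi), mul_zero, add_zero, map_mul, aeval_X,
          if_neg hi, add_zero]
        ring
    rw [map_mul, aeval_X, pderiv_mul, hp, Finset.sum_congr rfl fun i _ => h i,
      Finset.sum_add_distrib, ← Finset.mul_sum, Finset.sum_ite_eq', if_pos (Finset.mem_univ n)]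
    ring

/-- A nondegenerate differential at one point forces algebraic independence. -/
theorem aeval_injective_of_det_ne_zero [CharZero K] [Fintype σ] [DecidableEq σ]
    (P : σ → MvPolynomial σ K) (t₀ : σ → K)
    (hJ : (Matrix.of fun i l => eval t₀ (pderiv l (P i))).det ≠ 0) :
    Function.Injective (aeval P : MvPolynomial σ K →ₐ[K] MvPolynomial σ K) := by
  set J : Matrix σ σ (MvPolynomial σ K) := Matrix.of fun i l => pderiv l (P i) with hJdef
  have hdet : J.det ≠ 0 := fun h => hJ (by
    have h2 := congrArg (eval t₀) h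
    rwa [RingHom.map_det, map_zero] at h2)
  rw [injective_iff_map_eq_zero]
  intro q
  induction hd : q.totalDegree using Nat.strong_induction_on generalizing q with
  | _ d ih =>
  subst hd
  intro hq
  have hvec : (fun i => aeval P (pderiv i q)) = 0 := by
    refine Matrix.eq_zero_of_vecMul_eq_zero hdet (funext fun l => ?_)
    have h := pderiv_aeval P l q
    rw [hq, map_zero] at h
    exact h.symm
  by_contra hq0
  by_cases hconst : ∀ m ∈ q.support, m = 0
  · have h0 : q.totalDegree = 0 :=
      Nat.le_zero.1 (Finset.sup_le fun m hm => by simp [hconst m hm])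
    rw [totalDegree_eq_zero_iff_eq_C] at h0
    rw [h0, aeval_C, map_eq_zero] at hq
    rw [h0, hq, map_zero] at hq0
    exact hq0 rfl
  push Not at hconst
  obtain ⟨m, hm, hm0⟩ := hconst
  obtain ⟨i, hi⟩ := Finsupp.support_nonempty_iff.2 hm0
  rw [Finsupp.mem_support_iff] at hi
  have hlt : (pderiv i q).totalDegree < q.totalDegree := by
    have hpos : 0 < q.totalDegree :=
      lt_of_lt_of_le (by
        rw [Finsupp.sum]
        exact Finset.sum_pos' (fun _ _ => Nat.zero_le _)
          ⟨i, Finsupp.mem_support_iff.2 hi, Nat.pos_of_ne_zero hi⟩) (le_totalDegree hm)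
    refine (Nat.lt_iff_le_pred hpos).2 (Finset.sup_le fun k hk => ?_)
    rw [mem_support_iff, coeff_pderiv] at hk
    have := le_totalDegree (p := q) (s := k + Finsupp.single i 1)
      (mem_support_iff.2 (left_ne_zero_of_mul hk))
    rw [Finsupp.sum_add_index' (fun _ => rfl) (fun _ _ _ => rfl),
      Finsupp.sum_single_index rfl] at this
    omega
  have hz : pderiv i q = 0 := ih _ hlt _ rfl (congrFun hvec i)
  have hm' : m - Finsupp.single i 1 + Finsupp.single i 1 = m :=
    tsub_add_cancel_of_le (Finsupp.single_le_iff.2 (Nat.pos_of_ne_zero hi))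
  have hc := congrArg (coeff (m - Finsupp.single i 1)) hz
  rw [coeff_pderiv, coeff_zero, hm', mul_eq_zero] at hc
  rcases hc with hc | hc
  · exact mem_support_iff.1 hm hc
  · exact Nat.cast_add_one_ne_zero _ hc

open PrimeSpectrum Topology in
/-- A constructible subset of the spectrum of a domain, or its complement, contains a nonempty
basic open set. -/
lemma exists_basicOpen_of_isConstructible {R : Type*} [CommRing R] [IsDomain R]
    {s : Set (PrimeSpectrum R)} (hs : IsConstructible s) :
    ∃ a : R, a ≠ 0 ∧ ((basicOpen a : Set (PrimeSpectrum R)) ⊆ s ∨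
      (basicOpen a : Set (PrimeSpectrum R)) ⊆ sᶜ) := by
  induction hs using IsConstructible.empty_union_induction with
  | open_retrocompact U hU _ =>
    rcases U.eq_empty_or_nonempty with rfl | ⟨p, hp⟩
    · exact ⟨1, one_ne_zero, Or.inr (by simp)⟩
    · obtain ⟨_, ⟨_, ⟨a, rfl⟩, rfl⟩, hpa, haU⟩ :=
        isBasis_basic_opens.exists_subset_of_mem_open hp hU
      refine ⟨a, fun h0 => ?_, Or.inl haU⟩
      rw [h0] at hpa
      exact hpa p.asIdeal.zero_mem
  | union s _ t _ hs ht =>
    obtain ⟨a, ha, ha'⟩ := hs
    obtain ⟨c, hc, hc'⟩ := ht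
    rcases ha' with h | h
    · exact ⟨a, ha, Or.inl (h.trans Set.subset_union_left)⟩
    rcases hc' with h' | h'
    · exact ⟨c, hc, Or.inl (h'.trans Set.subset_union_right)⟩
    refine ⟨a * c, mul_ne_zero ha hc, Or.inr fun p hp hp' => ?_⟩
    rw [SetLike.mem_coe, mem_basicOpen] at hp
    rcases hp' with hp' | hp'
    · exact h (fun hmem => hp (Ideal.mul_mem_right _ _ hmem)) hp'
    · exact h' (fun hmem => hp (Ideal.mul_mem_left _ _ hmem)) hp'
  | compl s _ hs =>
    obtain ⟨a, ha, h | h⟩ := hs
    · exact ⟨a, ha, Or.inr (by rwa [compl_compl])⟩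
    · exact ⟨a, ha, Or.inl h⟩

open PrimeSpectrum Topology in
/-- The image of a principal open set under a map with algebraically independent components
contains a nonempty principal open set. -/
theorem exists_open_subset_image [IsAlgClosed K] [Finite σ] [Finite τ]
    (P : σ → MvPolynomial τ K)
    (hP : Function.Injective (aeval P : MvPolynomial σ K →ₐ[K] MvPolynomial τ K))
    (g : MvPolynomial τ K) (hg : g ≠ 0) :
    ∃ a : MvPolynomial σ K, a ≠ 0 ∧ ∀ y : σ → K, eval y a ≠ 0 →
      ∃ t : τ → K, eval t g ≠ 0 ∧ ∀ i, eval t (P i) = y i := by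
  set φ : MvPolynomial σ K →+* MvPolynomial τ K :=
    (aeval P : MvPolynomial σ K →ₐ[K] MvPolynomial τ K).toRingHom with hφ
  have hfp : φ.FinitePresentation := RingHom.FinitePresentation.of_finiteType.1
    (RingHom.FiniteType.of_comp_finiteType (f := MvPolynomial.C) (g := φ) (by
      rw [show φ.comp MvPolynomial.C = (MvPolynomial.C : K →+* MvPolynomial τ K) from
        RingHom.ext fun a => aeval_C P a]
      exact RingHom.finiteType_algebraMap.2 inferInstance))
  have hcons := isConstructible_comap_image hfp (isConstructible_basicOpen (f := g))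
  obtain ⟨a, ha, hsub⟩ := exists_basicOpen_of_isConstructible hcons
  have hmem : (basicOpen a : Set (PrimeSpectrum (MvPolynomial σ K))) ⊆
      comap φ '' (basicOpen g : Set (PrimeSpectrum (MvPolynomial τ K))) := by
    refine hsub.resolve_right fun h => h (show (⊥ : PrimeSpectrum (MvPolynomial σ K)) ∈ _ from ?_)
      ⟨⊥, ?_, ?_⟩
    · exact fun h0 => ha (Ideal.mem_bot.1 h0)
    · exact fun h0 => hg (Ideal.mem_bot.1 h0)
    · refine PrimeSpectrum.ext (Ideal.ext fun q => ?_)
      exact (map_eq_zero_iff φ hP :)
  refine ⟨a, ha, fun y hy => ?_⟩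
  have hmax : (RingHom.ker (eval y)).IsPrime := RingHom.ker_isPrime _
  obtain ⟨Q, hQg, hQ⟩ := hmem (show (⟨RingHom.ker (eval y), hmax⟩ :
    PrimeSpectrum (MvPolynomial σ K)) ∈ _ from hy)
  have hnot : ¬∀ t ∈ zeroLocus K Q.asIdeal, aeval t g = 0 := fun h => by
    have : g ∈ vanishingIdeal K (zeroLocus K Q.asIdeal) := h
    rw [MvPolynomial.IsPrime.vanishingIdeal_zeroLocus] at this
    exact hQg this
  push Not at hnot
  obtain ⟨t, htQ, htg⟩ := hnot
  refine ⟨t, by rwa [← aeval_eq_eval], fun i => ?_⟩
  have hi : φ (X i - C (y i)) ∈ Q.asIdeal := by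
    have : X i - C (y i) ∈ (comap φ Q).asIdeal := by
      rw [hQ]
      simp [RingHom.mem_ker]
    exact this
  have h := htQ _ hi
  rw [hφ] at h
  simpa [sub_eq_zero, aeval_eq_eval] using h

end FA.CartanConjugacy
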