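import Fermat.Agent.CartanConjugacy.Exp
import Fermat.Agent.CartanConjugacy.Dominant
import Mathlib.Algebra.Lie.CartanExists
import Mathlib.Algebra.Lie.Weights.Chain
import Mathlib.Algebra.Lie.Weights.Linear

/-!
# Conjugacy of Cartan subalgebras

Chevalley's theorem: over an algebraically closed field of characteristic zero any two Cartan
subalgebras of a finite-dimensional Lie algebra are carried into each other by an elementary
automorphism, and so their dimension is the rank.
-/

set_option autoImplicit false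
set_option linter.unusedSectionVars false

noncomputable section

namespace FA.CartanConjugacy

open Module LieModule LieAlgebra Finset

attribute [local instance 100] LieRing.ofAssociativeRing

variable {K L : Type*} [Field K] [CharZero K] [IsAlgClosed K] [LieRing L] [LieAlgebra K L]
  [FiniteDimensional K L] (H : LieSubalgebra K L) [H.IsCartanSubalgebra]

/-- The sum of the weight spaces of nonzero weights. -/
def npart : LieSubmodule K H L := ⨆ (χ : H → K) (_ : χ ≠ 0), genWeightSpace L χ

lemma disjoint_cartan_npart : Disjoint H.toSubmodule (npart H).toSubmodule := by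
  have h := iSupIndep_genWeightSpace K H L (0 : H → K)
  rw [← LieSubmodule.disjoint_toSubmodule] at h
  have h0 : (genWeightSpace L (0 : H → K)).toSubmodule = H.toSubmodule := by
    rw [show genWeightSpace L (0 : H → K) = H.toLieSubmodule from rootSpace_zero_eq K L H,
      LieSubalgebra.coe_toLieSubmodule]
  rw [h0] at h
  exact h

/-- A point of `H` on which no nonzero weight vanishes. -/
def IsGeneric (h : H) : Prop := ∀ χ : Weight K H L, χ.IsNonZero → χ h ≠ 0

lemma cartan_le_engel (h : H) : H ≤ LieSubalgebra.engel K (h : L) := fun x hx => by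
  rw [LieSubalgebra.mem_engel_iff]
  have h0 : x ∈ genWeightSpace L (0 : H → K) := by
    rw [show genWeightSpace L (0 : H → K) = H.toLieSubmodule from rootSpace_zero_eq K L H]
    exact hx
  obtain ⟨k, hk⟩ := (mem_genWeightSpace _ _ _).1 h0 h
  rw [Pi.zero_apply, zero_smul, sub_zero] at hk
  exact ⟨k, hk⟩

lemma IsGeneric.disjoint_engel {h : H} (hh : IsGeneric H h) :
    Disjoint (LieSubalgebra.engel K (h : L)).toSubmodule (npart H).toSubmodule := by
  refine Disjoint.mono_right ?_ ((LieAlgebra.ad K L (h : L)).independent_maxGenEigenspace (0 : K))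
  rw [npart, LieSubmodule.iSup_toSubmodule, iSup_le_iff]
  intro χ
  rw [LieSubmodule.iSup_toSubmodule, iSup_le_iff]
  intro hχ
  by_cases hb : genWeightSpace L χ = ⊥
  · simp [hb]
  have hne : χ h ≠ 0 := hh ⟨χ, hb⟩ hχ
  refine le_trans ?_ (le_iSup₂ (f := fun c (_ : c ≠ (0 : K)) =>
    (LieAlgebra.ad K L (h : L)).maxGenEigenspace c) (χ h) hne)
  intro x hx
  obtain ⟨k, hk⟩ := (mem_genWeightSpace _ _ _).1 hx h
  exact (Module.End.mem_maxGenEigenspace _ _ _).2 ⟨k, hk⟩

/-- An adapted basis: every vector lies in a weight space. -/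
lemma exists_adapted : ∃ (B : Basis (Fin (finrank K L)) K L)
    (w : Fin (finrank K L) → Weight K H L), ∀ k, B k ∈ genWeightSpace L (w k : H → K) := by
  classical
  have hint : DirectSum.IsInternal fun χ : Weight K H L =>
      (genWeightSpace L (χ : H → K)).toSubmodule :=
    DirectSum.isInternal_submodule_of_iSupIndep_of_iSup_eq_top
      (LieSubmodule.iSupIndep_toSubmodule.2 (iSupIndep_genWeightSpace' K H L))
      (LieSubmodule.iSup_toSubmodule_eq_top.2 (iSup_genWeightSpace_eq_top' K H L))
  let B := hint.collectedBasis fun χ =>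
    Module.finBasis K (genWeightSpace L (χ : H → K)).toSubmodule
  let e := Fintype.equivFinOfCardEq (Module.finrank_eq_card_basis B).symm
  exact ⟨B.reindex e, fun k => (e.symm k).1, fun k => by
    rw [Basis.reindex_apply]
    exact hint.collectedBasis_mem _ _⟩

variable {H}

/-- A vector of polynomials evaluated to an element of `L`. -/
def toL (C : Basis (Fin (finrank K L)) K L) (t : Fin (finrank K L) → K)
    (P : Fin (finrank K L) → MvPolynomial (Fin (finrank K L)) K) : L :=
  ∑ i, MvPolynomial.eval t (P i) • C i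

variable (C : Basis (Fin (finrank K L)) K L)

local notation "Pol" => MvPolynomial (Fin (finrank K L)) K

lemma repr_toL (t : Fin (finrank K L) → K) (P : Fin (finrank K L) → Pol) (i : Fin (finrank K L)) :
    C.repr (toL C t P) i = MvPolynomial.eval t (P i) := by
  rw [toL, C.repr_sum_self]

/-- A constant linear map applied to a vector of polynomials. -/
def mapVec (f : Module.End K L) (P : Fin (finrank K L) → Pol) : Fin (finrank K L) → Pol :=
  fun i => ∑ j, MvPolynomial.C (LinearMap.toMatrix C C f i j) * P j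

lemma toL_mapVec (f : Module.End K L) (t : Fin (finrank K L) → K)
    (P : Fin (finrank K L) → Pol) : toL C t (mapVec C f P) = f (toL C t P) := by
  simp only [toL, mapVec, map_sum, map_smul, MvPolynomial.eval_mul, MvPolynomial.eval_C,
    Finset.sum_smul]
  rw [Finset.sum_comm]
  refine Finset.sum_congr rfl fun j _ => ?_
  conv_rhs => rw [← C.sum_repr (f (C j)), Finset.smul_sum]
  refine Finset.sum_congr rfl fun i _ => ?_
  rw [LinearMap.toMatrix_apply, smul_smul, mul_comm]

lemma pderiv_mapVec (f : Module.End K L) (l : Fin (finrank K L))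
    (P : Fin (finrank K L) → Pol) :
    (fun i => MvPolynomial.pderiv l (mapVec C f P i)) =
      mapVec C f fun i => MvPolynomial.pderiv l (P i) := by
  funext i
  simp [mapVec]

/-- The exponential series of `X k • ad x` applied to a vector of polynomials. -/
def expStep (x : L) (k : Fin (finrank K L)) (P : Fin (finrank K L) → Pol) :
    Fin (finrank K L) → Pol :=
  fun i => ∑ m ∈ range (finrank K L + 2), MvPolynomial.C ((m.factorial : K)⁻¹) *
    MvPolynomial.X k ^ m * mapVec C (LieAlgebra.ad K L x ^ m) P i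

lemma pow_eq_zero_of_nilpotent {f : Module.End K L} (hf : IsNilpotent f) {N : ℕ}
    (hN : finrank K L ≤ N) : f ^ N = 0 := by
  have h := f.aeval_self_charpoly
  rw [hf.charpoly_eq_X_pow_finrank, map_pow, Polynomial.aeval_X] at h
  exact pow_eq_zero_of_le hN h

lemma isNilpotent_ad_smul {x : L} (hx : IsNilpotent (LieAlgebra.ad K L x)) (c : K) :
    IsNilpotent (LieAlgebra.ad K L (c • x)) := by
  rw [map_smul]
  exact hx.smul c

lemma toL_expStep {x : L} (hx : IsNilpotent (LieAlgebra.ad K L x)) (k : Fin (finrank K L))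
    (t : Fin (finrank K L) → K) (P : Fin (finrank K L) → Pol) :
    toL C t (expStep C x k P) =
      expAd (t k • x) (isNilpotent_ad_smul hx (t k)) (toL C t P) := by
  rw [expAd_apply _ _ (N := finrank K L + 2)
    (pow_eq_zero_of_nilpotent (isNilpotent_ad_smul hx (t k)) (by omega))]
  simp only [toL, expStep, map_sum, MvPolynomial.eval_mul, MvPolynomial.eval_C, map_pow,
    MvPolynomial.eval_X, Finset.sum_smul]
  rw [Finset.sum_comm]
  refine Finset.sum_congr rfl fun m _ => ?_
  rw [map_smul, smul_pow, ← map_sum, LinearMap.smul_apply, smul_smul, ← toL, ← toL_mapVec, toL,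
    Finset.smul_sum]
  exact Finset.sum_congr rfl fun i _ => (smul_smul _ _ _).symm

lemma toL_pderiv_expStep {x : L} (k l : Fin (finrank K L)) {t : Fin (finrank K L) → K}
    (ht : t k = 0) (P : Fin (finrank K L) → Pol) :
    toL C t (fun i => MvPolynomial.pderiv l (expStep C x k P i)) =
      toL C t (fun i => MvPolynomial.pderiv l (P i)) +
        (if l = k then ⁅x, toL C t P⁆ else 0) := by
  simp only [toL, expStep, map_sum, Finset.sum_smul]
  rw [Finset.sum_comm]
  have hterm : ∀ m : ℕ, (∑ i, MvPolynomial.eval t (MvPolynomial.pderiv l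
      (MvPolynomial.C ((m.factorial : K)⁻¹) * MvPolynomial.X k ^ m *
        mapVec C (LieAlgebra.ad K L x ^ m) P i)) • C i) =
      MvPolynomial.eval t (MvPolynomial.pderiv l
          (MvPolynomial.C ((m.factorial : K)⁻¹) * MvPolynomial.X k ^ m)) •
          (LieAlgebra.ad K L x ^ m) (toL C t P) +
        MvPolynomial.eval t (MvPolynomial.C ((m.factorial : K)⁻¹) * MvPolynomial.X k ^ m) •
          (LieAlgebra.ad K L x ^ m) (toL C t fun i => MvPolynomial.pderiv l (P i)) := fun m => by
    rw [← toL_mapVec, ← toL_mapVec, toL, toL, Finset.smul_sum, Finset.smul_sum,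
      ← Finset.sum_add_distrib]
    refine Finset.sum_congr rfl fun i _ => ?_
    rw [MvPolynomial.pderiv_mul, map_add, map_mul (MvPolynomial.eval t),
      map_mul (MvPolynomial.eval t) _ (MvPolynomial.pderiv l _), add_smul, smul_smul, smul_smul,
      ← congrFun (pderiv_mapVec C _ l P) i]
  rw [Finset.sum_congr rfl fun m _ => hterm m]
  rw [Finset.sum_add_distrib, add_comm]
  congr 1
  · rw [Finset.sum_eq_single 0]
    · simp [toL]
    · intro m _ hm
      simp [ht, hm]
    · simp
  · rw [Finset.sum_eq_single 1]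
    · by_cases hlk : l = k
      · subst hlk
        simp [toL, lie_sum]
      · simp [hlk, MvPolynomial.pderiv_X_of_ne (Ne.symm hlk)]
    · intro m _ hm
      rcases Nat.eq_zero_or_pos m with rfl | hm0
      · simp
      · simp [ht, show m - 1 ≠ 0 by omega]
    · simp

/-- The composite of the exponential steps of a list of directions. -/
def chainPoly (B : Basis (Fin (finrank K L)) K L) (P : Fin (finrank K L) → Pol)
    (ks : List (Fin (finrank K L))) : Fin (finrank K L) → Pol :=
  ks.foldr (fun k Q => expStep C (B k) k Q) P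

lemma exists_elementary_chainPoly (B : Basis (Fin (finrank K L)) K L)
    (P : Fin (finrank K L) → Pol) (ks : List (Fin (finrank K L)))
    (hks : ∀ k ∈ ks, IsNilpotent (LieAlgebra.ad K L (B k))) (t : Fin (finrank K L) → K) :
    ∃ φ : L ≃ₗ⁅K⁆ L, IsElementary φ ∧ toL C t (chainPoly C B P ks) = φ (toL C t P) := by
  induction ks with
  | nil => exact ⟨LieEquiv.refl, IsElementary.refl, rfl⟩
  | cons k ks ih =>
    obtain ⟨φ, hφ, h⟩ := ih fun a ha => hks a (List.mem_cons_of_mem _ ha)
    refine ⟨φ.trans (expAd (t k • B k) (isNilpotent_ad_smul (hks k List.mem_cons_self) (t k))),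
      hφ.trans (isElementary_expAd _ _), ?_⟩
    rw [LieEquiv.trans_apply, ← h]
    exact toL_expStep C (hks k List.mem_cons_self) k t _

lemma toL_chainPoly_of_zero (B : Basis (Fin (finrank K L)) K L)
    (P : Fin (finrank K L) → Pol) (ks : List (Fin (finrank K L)))
    {t : Fin (finrank K L) → K} (ht : ∀ k ∈ ks, t k = 0)
    (hks : ∀ k ∈ ks, IsNilpotent (LieAlgebra.ad K L (B k))) :
    toL C t (chainPoly C B P ks) = toL C t P := by
  induction ks with
  | nil => rfl
  | cons k ks ih =>
    refine (toL_expStep C (hks k List.mem_cons_self) k t _).trans ?_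
    rw [expAd_apply _ _ (N := 1) (by rw [ht k List.mem_cons_self, zero_smul, map_zero, pow_one])]
    simp only [range_one, sum_singleton, Nat.factorial_zero, Nat.cast_one, inv_one, one_smul,
      pow_zero, Module.End.one_apply]
    exact ih (fun a ha => ht a (List.mem_cons_of_mem _ ha))
      fun a ha => hks a (List.mem_cons_of_mem _ ha)

lemma toL_pderiv_chainPoly (B : Basis (Fin (finrank K L)) K L)
    (P : Fin (finrank K L) → Pol) (ks : List (Fin (finrank K L))) (hnd : ks.Nodup)
    {t : Fin (finrank K L) → K} (ht : ∀ k ∈ ks, t k = 0)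
    (hks : ∀ k ∈ ks, IsNilpotent (LieAlgebra.ad K L (B k))) (l : Fin (finrank K L)) :
    toL C t (fun i => MvPolynomial.pderiv l (chainPoly C B P ks i)) =
      toL C t (fun i => MvPolynomial.pderiv l (P i)) +
        (if l ∈ ks then ⁅B l, toL C t P⁆ else 0) := by
  induction ks with
  | nil => simp [chainPoly]
  | cons k ks ih =>
    have ht' : ∀ a ∈ ks, t a = 0 := fun a ha => ht a (List.mem_cons_of_mem _ ha)
    have hks' : ∀ a ∈ ks, IsNilpotent (LieAlgebra.ad K L (B a)) := fun a ha =>
      hks a (List.mem_cons_of_mem _ ha)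
    refine (toL_pderiv_expStep C k l (ht k List.mem_cons_self) _).trans ?_
    rw [show toL C t (List.foldr (fun k Q => expStep C (B k) k Q) P ks) = toL C t P from
      toL_chainPoly_of_zero C B P ks ht' hks',
      show toL C t (fun i => MvPolynomial.pderiv l
        (List.foldr (fun k Q => expStep C (B k) k Q) P ks i)) = _ from
      ih (List.nodup_cons.1 hnd).2 ht' hks']
    by_cases hlk : l = k
    · subst hlk
      simp [(List.nodup_cons.1 hnd).1]
    · simp [hlk]

/-- The translates of the generic points of a Cartan subalgebra fill a nonempty principal open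
set, in any coordinates. -/
theorem exists_open_conjugates (H : LieSubalgebra K L) [H.IsCartanSubalgebra] :
    ∃ a : Pol, a ≠ 0 ∧ ∀ z : L, MvPolynomial.eval (⇑(C.repr z)) a ≠ 0 →
      ∃ φ : L ≃ₗ⁅K⁆ L, IsElementary φ ∧ ∃ h : H,
        LieSubalgebra.engel K (h : L) = H ∧ φ h = z := by
  classical
  obtain ⟨B, w, hw⟩ := exists_adapted H
  let hgen : Fin (finrank K L) → H := fun k =>
    if hk : (w k).IsZero then ⟨B k, by
      have h := hw k
      rw [show (w k : H → K) = 0 from hk,
        show genWeightSpace L (0 : H → K) = H.toLieSubmodule from rootSpace_zero_eq K L H] at h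
      exact h⟩ else 0
  have hgen_zero : ∀ k, (w k).IsZero → (hgen k : L) = B k := fun k hk => by simp [hgen, hk]
  have hgen_ne : ∀ k, ¬(w k).IsZero → hgen k = 0 := fun k hk => by simp [hgen, hk]
  have hsplit : ∀ x : L, ∃ a c, a ∈ Submodule.span K (Set.range fun k => (hgen k : L)) ∧
      c ∈ (npart H).toSubmodule ∧ x = a + c := fun x => by
    refine ⟨∑ k, B.repr x k • (hgen k : L),
      ∑ k, if (w k).IsZero then 0 else B.repr x k • B k, ?_, ?_, ?_⟩
    · exact Submodule.sum_mem _ fun k _ =>
        Submodule.smul_mem _ _ (Submodule.subset_span ⟨k, rfl⟩)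
    · refine Submodule.sum_mem _ fun k _ => ?_
      split_ifs with hk
      · exact zero_mem _
      · refine Submodule.smul_mem _ _ ?_
        rw [LieSubmodule.mem_toSubmodule, npart]
        exact LieSubmodule.mem_iSup_of_mem _ (LieSubmodule.mem_iSup_of_mem hk (hw k))
    · conv_lhs => rw [← B.sum_repr x]
      rw [← Finset.sum_add_distrib]
      refine Finset.sum_congr rfl fun k _ => ?_
      by_cases hk : (w k).IsZero
      · simp [hk, hgen_zero k hk]
      · simp [hk, hgen_ne k hk]
  have hspan_le : Submodule.span K (Set.range fun k => (hgen k : L)) ≤ H.toSubmodule :=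
    Submodule.span_le.2 (by rintro _ ⟨k, rfl⟩; exact (hgen k).2)
  -- weights are determined by their values on the generators
  let g : Weight K H L → Pol := fun χ =>
    ∑ k, MvPolynomial.C (χ (hgen k)) * MvPolynomial.X k
  have hg : ∀ χ : Weight K H L, χ.IsNonZero → g χ ≠ 0 := fun χ hχ h0 => by
    refine hχ (funext fun h => ?_)
    obtain ⟨a, c, ha, hc, hac⟩ := hsplit h
    have hc0 : c = 0 := by
      refine (Submodule.disjoint_def.1 (disjoint_cartan_npart H)) c ?_ hc
      rw [show c = (h : L) - a by rw [hac]; abel]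
      exact sub_mem h.2 (hspan_le ha)
    rw [hc0, add_zero] at hac
    obtain ⟨v, hv⟩ := (Submodule.mem_span_range_iff_exists_fun K).1 ha
    have hh : h = ∑ k, v k • hgen k := Subtype.ext (by
      rw [hac, ← hv]
      simp)
    have hk : ∀ k, χ (hgen k) = 0 := fun k => by
      have h1 := congrArg (MvPolynomial.eval (Pi.single k (1 : K))) h0
      simpa [g, Pi.single_apply] using h1
    rw [hh, Pi.zero_apply, map_sum]
    simp [hk]
  let gAll : Pol := ∏ χ ∈ Finset.univ.filter (fun χ : Weight K H L => χ.IsNonZero), g χ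
  have hgAll : gAll ≠ 0 :=
    Finset.prod_ne_zero_iff.2 fun χ hχ => hg χ (Finset.mem_filter.1 hχ).2
  let hvec : (Fin (finrank K L) → K) → H := fun t => ∑ k, t k • hgen k
  have hgeneric : ∀ t, MvPolynomial.eval t gAll ≠ 0 → IsGeneric H (hvec t) := fun t ht χ hχ h0 => by
    rw [map_prod, Finset.prod_ne_zero_iff] at ht
    refine ht χ (Finset.mem_filter.2 ⟨Finset.mem_univ _, hχ⟩) ?_
    rw [show hvec t = ∑ k, t k • hgen k from rfl, map_sum] at h0
    rw [← h0]
    simp [g, mul_comm]
  have hengel : ∀ h : H, IsGeneric H h → LieSubalgebra.engel K (h : L) = H := fun h hh => by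
    refine le_antisymm (fun x hx => ?_) (cartan_le_engel H h)
    obtain ⟨a, c, ha, hc, hac⟩ := hsplit x
    have hc0 : c = 0 := Submodule.disjoint_def.1 hh.disjoint_engel c
      (by
        rw [show c = x - a by rw [hac]; abel]
        exact sub_mem hx (cartan_le_engel H h (hspan_le ha))) hc
    rw [hac, hc0, add_zero]
    exact hspan_le ha
  -- the map
  let ks : List (Fin (finrank K L)) := (Finset.univ.filter fun k => ¬(w k).IsZero).toList
  have hks : ∀ k ∈ ks, IsNilpotent (LieAlgebra.ad K L (B k)) := fun k hk =>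
    isNilpotent_ad_of_mem_rootSpace H
      (χ := (w k : H → K)) (Finset.mem_filter.1 (Finset.mem_toList.1 hk)).2 (hw k)
  let P₀ : Fin (finrank K L) → Pol := fun i =>
    ∑ k, MvPolynomial.C (C.repr (hgen k : L) i) * MvPolynomial.X k
  have hP₀ : ∀ t, toL C t P₀ = hvec t := fun t => by
    rw [show ((hvec t : H) : L) = ∑ k, t k • (hgen k : L) by simp [hvec], toL]
    simp only [P₀, map_sum, MvPolynomial.eval_mul, MvPolynomial.eval_C, MvPolynomial.eval_X,
      Finset.sum_smul]
    rw [Finset.sum_comm]
    refine Finset.sum_congr rfl fun k _ => ?_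
    conv_rhs => rw [← C.sum_repr (hgen k : L), Finset.smul_sum]
    exact Finset.sum_congr rfl fun i _ => by rw [smul_smul, mul_comm]
  have hdP₀ : ∀ t l, toL C t (fun i => MvPolynomial.pderiv l (P₀ i)) = (hgen l : L) := fun t l => by
    conv_rhs => rw [← C.sum_repr (hgen l : L)]
    refine Finset.sum_congr rfl fun i _ => ?_
    simp only [P₀, map_sum, MvPolynomial.pderiv_C_mul]
    congr 1
    rw [Finset.sum_eq_single l]
    · simp
    · intro k _ hk
      simp [MvPolynomial.pderiv_X_of_ne hk]
    · simp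
  let P : Fin (finrank K L) → Pol := chainPoly C B P₀ ks
  -- the base point
  obtain ⟨t₁, ht₁⟩ : ∃ t, MvPolynomial.eval t gAll ≠ 0 := by
    by_contra hcon
    push Not at hcon
    exact hgAll (MvPolynomial.funext fun t => by rw [hcon t, map_zero])
  let t₀ : Fin (finrank K L) → K := fun k => if (w k).IsZero then t₁ k else 0
  have hvec₀ : hvec t₀ = hvec t₁ := Finset.sum_congr rfl fun k _ => by
    by_cases hk : (w k).IsZero
    · simp [t₀, hk]
    · simp [hgen_ne k hk]
  have hgen₀ : IsGeneric H (hvec t₀) := hvec₀ ▸ hgeneric t₁ ht₁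
  have hJ : (Matrix.of fun i l => MvPolynomial.eval t₀ (MvPolynomial.pderiv l (P i))).det ≠ 0 := by
    intro hdet
    obtain ⟨v, hv0, hv⟩ := Matrix.exists_mulVec_eq_zero_iff.2 hdet
    refine hv0 (funext fun l => ?_)
    have hsum : ∑ l, v l • toL C t₀ (fun i => MvPolynomial.pderiv l (P i)) = 0 := by
      have h : ∀ i, ∑ l, MvPolynomial.eval t₀ (MvPolynomial.pderiv l (P i)) * v l = 0 :=
        fun i => congrFun hv i
      simp only [toL, Finset.smul_sum, smul_smul]
      rw [Finset.sum_comm]
      refine Finset.sum_eq_zero fun i _ => ?_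
      rw [← Finset.sum_smul, Finset.sum_congr rfl fun l _ => mul_comm (v l) _, h i, zero_smul]
    have ht₀ : ∀ k ∈ ks, t₀ k = 0 := fun k hk => by
      simp [t₀, (Finset.mem_filter.1 (Finset.mem_toList.1 hk)).2]
    have hd : ∀ l, toL C t₀ (fun i => MvPolynomial.pderiv l (P i)) =
        (hgen l : L) + (if l ∈ ks then ⁅B l, (hvec t₀ : L)⁆ else 0) := fun l => by
      rw [toL_pderiv_chainPoly C B P₀ ks (Finset.nodup_toList _) ht₀ hks, hdP₀, hP₀]
    rw [Finset.sum_congr rfl fun l _ => by rw [hd l, smul_add], Finset.sum_add_distrib] at hsum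
    set a : L := ∑ l, v l • (hgen l : L) with ha_def
    set c : L := ∑ l, if (w l).IsZero then 0 else v l • B l with hc_def
    have haH : a ∈ H.toSubmodule := Submodule.sum_mem _ fun l _ =>
      Submodule.smul_mem _ _ (hgen l).2
    have hcN : c ∈ (npart H).toSubmodule := Submodule.sum_mem _ fun l _ => by
      split_ifs with hl
      · exact zero_mem _
      · refine Submodule.smul_mem _ _ ?_
        rw [LieSubmodule.mem_toSubmodule, npart]
        exact LieSubmodule.mem_iSup_of_mem _ (LieSubmodule.mem_iSup_of_mem hl (hw l))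
    have h2 : (∑ l, v l • if l ∈ ks then ⁅B l, (hvec t₀ : L)⁆ else 0) =
        -⁅(hvec t₀ : L), c⁆ := by
      rw [hc_def, lie_sum, ← Finset.sum_neg_distrib]
      refine Finset.sum_congr rfl fun l _ => ?_
      by_cases hl : (w l).IsZero
      · simp [ks, hl]
      · rw [if_pos (by simp [ks, hl]), if_neg hl, lie_smul, ← lie_skew, smul_neg]
    rw [h2, add_neg_eq_zero] at hsum
    have hbr : ⁅(hvec t₀ : L), c⁆ ∈ (npart H).toSubmodule :=
      (npart H).lie_mem (x := hvec t₀) hcN
    have ha0 : a = 0 := Submodule.disjoint_def.1 (disjoint_cartan_npart H) a haH (hsum ▸ hbr)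
    rw [ha0] at hsum
    have hc0 : c = 0 := Submodule.disjoint_def.1 hgen₀.disjoint_engel c
      ((LieSubalgebra.mem_engel_iff K _ _).2 ⟨1, by rw [pow_one, ad_apply, ← hsum]⟩) hcN
    have hall : ∑ l, v l • B l = 0 := by
      rw [← add_zero (0 : L)]
      nth_rewrite 1 [← ha0]
      rw [← hc0, ha_def, hc_def, ← Finset.sum_add_distrib]
      refine Finset.sum_congr rfl fun l _ => ?_
      by_cases hl : (w l).IsZero
      · simp [hl, hgen_zero l hl]
      · simp [hl, hgen_ne l hl]
    exact Fintype.linearIndependent_iff.1 B.linearIndependent v hall l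
  obtain ⟨a, ha, hopen⟩ :=
    exists_open_subset_image P (aeval_injective_of_det_ne_zero P t₀ hJ) gAll hgAll
  refine ⟨a, ha, fun z hz => ?_⟩
  obtain ⟨t, htg, ht⟩ := hopen _ hz
  obtain ⟨φ, hφ, hφt⟩ := exists_elementary_chainPoly C B P₀ ks hks t
  refine ⟨φ, hφ, hvec t, hengel _ (hgeneric t htg), ?_⟩
  rw [← hP₀, ← hφt]
  exact C.repr.injective (Finsupp.ext fun i => (repr_toL C t P i).trans (ht i))

lemma map_engel {L' : Type*} [LieRing L'] [LieAlgebra K L'] (φ : L ≃ₗ⁅K⁆ L') (h : L) :
    (LieSubalgebra.engel K h).map φ.toLieHom = LieSubalgebra.engel K (φ h) := by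
  have hpow : ∀ (n : ℕ) (x : L),
      (LieAlgebra.ad K L' (φ h) ^ n) (φ x) = φ ((LieAlgebra.ad K L h ^ n) x) := by
    intro n
    induction n with
    | zero => simp
    | succ n ih =>
      intro x
      rw [pow_succ, pow_succ, Module.End.mul_apply, Module.End.mul_apply, ad_apply, ad_apply,
        ← ih]
      congr 1
      exact (φ.toLieHom.map_lie h x).symm
  ext y
  rw [LieSubalgebra.mem_map]
  constructor
  · rintro ⟨x, hx, rfl⟩
    rw [LieSubalgebra.mem_engel_iff] at hx ⊢
    obtain ⟨n, hn⟩ := hx
    exact ⟨n, by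
      rw [show φ.toLieHom x = φ x from rfl, hpow, hn, map_zero]⟩
  · intro hy
    refine ⟨φ.symm y, ?_, φ.apply_symm_apply y⟩
    rw [LieSubalgebra.mem_engel_iff] at hy ⊢
    obtain ⟨n, hn⟩ := hy
    refine ⟨n, ?_⟩
    rw [← φ.apply_symm_apply y, hpow] at hn
    exact φ.injective (hn.trans (map_zero φ).symm)

lemma exists_eval_ne_zero {a : Pol} (ha : a ≠ 0) :
    ∃ z : L, MvPolynomial.eval (⇑(C.repr z)) a ≠ 0 := by
  by_contra hcon
  push Not at hcon
  refine ha (MvPolynomial.funext fun y => ?_)
  have h := hcon (∑ i, y i • C i)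
  rw [C.repr_sum_self] at h
  rw [h, map_zero]

/-- **Chevalley's theorem**: Cartan subalgebras are conjugate by elementary automorphisms. -/
theorem exists_elementary_map_eq (H₁ H₂ : LieSubalgebra K L) [H₁.IsCartanSubalgebra]
    [H₂.IsCartanSubalgebra] :
    ∃ φ : L ≃ₗ⁅K⁆ L, IsElementary φ ∧ H₁.map φ.toLieHom = H₂ := by
  let C := Module.finBasis K L
  obtain ⟨a₁, ha₁, h₁⟩ := exists_open_conjugates C H₁
  obtain ⟨a₂, ha₂, h₂⟩ := exists_open_conjugates C H₂
  obtain ⟨z, hz⟩ := exists_eval_ne_zero C (mul_ne_zero ha₁ ha₂)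
  rw [map_mul, mul_ne_zero_iff] at hz
  obtain ⟨φ₁, hφ₁, x₁, hx₁, hz₁⟩ := h₁ z hz.1
  obtain ⟨φ₂, hφ₂, x₂, hx₂, hz₂⟩ := h₂ z hz.2
  refine ⟨φ₁.trans φ₂.symm, hφ₁.trans hφ₂.symm, ?_⟩
  conv_lhs => rw [← hx₁]
  rw [map_engel, LieEquiv.trans_apply, hz₁, ← hz₂, LieEquiv.symm_apply_apply, hx₂]

/-- The dimension of a Cartan subalgebra is the rank. -/
theorem finrank_eq_rank (H : LieSubalgebra K L) [H.IsCartanSubalgebra] :
    finrank K H = LieAlgebra.rank K L := by
  classical
  let C := Module.finBasis K L
  obtain ⟨a, ha, h⟩ := exists_open_conjugates C H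
  have hr := LieAlgebra.polyCharpoly_coeff_rank_ne_zero K L C
  obtain ⟨z, hz⟩ := exists_eval_ne_zero C (mul_ne_zero ha hr)
  rw [map_mul, mul_ne_zero_iff] at hz
  obtain ⟨φ, -, x, hx, hφx⟩ := h z hz.1
  have hreg : LieAlgebra.IsRegular K z :=
    (LieAlgebra.isRegular_iff_coeff_polyCharpoly_rank_ne_zero K C z).2 hz.2
  rw [← (LieAlgebra.isRegular_iff_finrank_engel_eq_rank K z).1 hreg, ← hφx, ← map_engel, hx]
  exact (LinearEquiv.finrank_map_eq φ.toLinearEquiv H.toSubmodule).symm

end FA.CartanConjugacy
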