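import Mathlib.Algebra.Lie.Derivation.Basic
import Mathlib.Algebra.Lie.Weights.Cartan
import Mathlib.RingTheory.Nilpotent.Exp
import Mathlib.LinearAlgebra.Dimension.Finite

/-!
# Elementary automorphisms of a Lie algebra

The exponential of a nilpotent inner derivation over a field of characteristic zero, and the class
of automorphisms composed of these.
-/

set_option autoImplicit false

noncomputable section

namespace FA.CartanConjugacy

open Finset

attribute [local instance 100] LieRing.ofAssociativeRing

variable {K L : Type*} [Field K] [CharZero K] [LieRing L] [LieAlgebra K L]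

variable (K L) in
/-- The rational structure given by the inclusion of `ℚ` in `K`. -/
@[implicit_reducible] def ratModule : Module ℚ L := Module.compHom L (Rat.castHom K)

/-- The derivation `ad x`. -/
def adDer (x : L) : LieDerivation K L L where
  toLinearMap := LieAlgebra.ad K L x
  leibniz' a c := by
    simp only [LieAlgebra.ad_apply]
    rw [leibniz_lie, ← lie_skew c ⁅x, a⁆]
    abel

lemma ratModule_smulCommClass : letI := ratModule K L; SMulCommClass K ℚ L :=
  letI := ratModule K L
  ⟨fun a q v => smul_comm a (q : K) v⟩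

/-- The exponential of a nilpotent `ad x`. -/
def expAd (x : L) (hx : IsNilpotent (LieAlgebra.ad K L x)) : L ≃ₗ⁅K⁆ L :=
  letI : Module ℚ L := ratModule K L
  letI : LieAlgebra ℚ L := { lie_smul := fun q u v => lie_smul ((q : ℚ) : K) u v }
  LieDerivation.exp (adDer x) hx

lemma expAd_apply (x : L) (hx : IsNilpotent (LieAlgebra.ad K L x)) {N : ℕ}
    (hN : LieAlgebra.ad K L x ^ N = 0) (y : L) :
    expAd x hx y = ∑ n ∈ range N, (n.factorial : K)⁻¹ • (LieAlgebra.ad K L x ^ n) y := by
  let _ : Module ℚ L := ratModule K L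
  have : SMulCommClass K ℚ L := ratModule_smulCommClass
  change IsNilpotent.exp (LieAlgebra.ad K L x) y = _
  rw [IsNilpotent.exp_eq_sum hN, LinearMap.sum_apply]
  refine sum_congr rfl fun n _ => ?_
  rw [LinearMap.smul_apply]
  change (((n.factorial : ℚ)⁻¹ : ℚ) : K) • (LieAlgebra.ad K L x ^ n) y = _
  rw [Rat.cast_inv, Rat.cast_natCast]

lemma expAd_symm (x : L) (hx : IsNilpotent (LieAlgebra.ad K L x)) :
    (expAd x hx).symm = expAd (-x) (by rw [map_neg]; exact hx.neg) := by
  refine LieEquiv.ext fun y => ?_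
  obtain ⟨N, hN⟩ := hx
  rw [expAd_apply (-x) _ (N := N) (by rw [map_neg, neg_pow, hN, mul_zero])]
  let _ : Module ℚ L := ratModule K L
  have : SMulCommClass K ℚ L := ratModule_smulCommClass
  change IsNilpotent.exp (-(LieAlgebra.ad K L x)) y = _
  rw [IsNilpotent.exp_eq_sum (k := N) (by rw [neg_pow, hN, mul_zero]), LinearMap.sum_apply]
  refine sum_congr rfl fun n _ => ?_
  rw [LinearMap.smul_apply, map_neg]
  change (((n.factorial : ℚ)⁻¹ : ℚ) : K) • ((-LieAlgebra.ad K L x) ^ n) y = _
  rw [Rat.cast_inv, Rat.cast_natCast]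

/-- Composites of exponentials of nilpotent inner derivations. -/
inductive IsElementary : (L ≃ₗ⁅K⁆ L) → Prop
  | refl : IsElementary LieEquiv.refl
  | exp_trans {φ : L ≃ₗ⁅K⁆ L} (x : L) (hx : IsNilpotent (LieAlgebra.ad K L x))
      (hφ : IsElementary φ) : IsElementary ((expAd x hx).trans φ)

lemma IsElementary.trans {φ ψ : L ≃ₗ⁅K⁆ L} (hφ : IsElementary φ) (hψ : IsElementary ψ) :
    IsElementary (φ.trans ψ) := by
  induction hφ with
  | refl => exact (LieEquiv.ext fun _ => rfl : LieEquiv.refl.trans ψ = ψ).symm ▸ hψ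
  | @exp_trans φ x hx _ ih =>
    exact (LieEquiv.ext fun _ => rfl :
      ((expAd x hx).trans φ).trans ψ = (expAd x hx).trans (φ.trans ψ)).symm ▸ ih.exp_trans x hx

lemma isElementary_expAd (x : L) (hx : IsNilpotent (LieAlgebra.ad K L x)) :
    IsElementary (expAd x hx) :=
  (LieEquiv.ext fun _ => rfl : (expAd x hx).trans LieEquiv.refl = expAd x hx) ▸
    IsElementary.refl.exp_trans x hx

lemma IsElementary.symm {φ : L ≃ₗ⁅K⁆ L} (hφ : IsElementary φ) : IsElementary φ.symm := by
  induction hφ with
  | refl => exact IsElementary.refl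
  | @exp_trans φ x hx _ ih =>
    rw [LieEquiv.symm_trans, expAd_symm]
    exact ih.trans (isElementary_expAd _ _)

end FA.CartanConjugacy
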